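import Mathlib

/-!
# S58, block QUAD : Lucas sequences

`V_0 = 2`, `V_1 = a`, `V_{n+2} = a V_{n+1} - l V_n`.  If `s² - a s + l = 0` then
`(s^b)² - V_b s^b + l^b = 0`.
-/

set_option autoImplicit false

namespace Fermat.Agent.S58

/-- the Lucas sequence `V_n(a, l)`. -/
def lucasV (a l : ℤ) : ℕ → ℤ
  | 0 => 2
  | 1 => a
  | (n + 2) => a * lucasV a l (n + 1) - l * lucasV a l n

theorem Lucas_comm {A : Type*} [CommRing A] (s : A) (a l : ℤ)
    (h : s ^ 2 - (a : A) * s + (l : A) = 0) (b : ℕ) :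
    (s ^ b) ^ 2 - (lucasV a l b : A) * s ^ b + (l : A) ^ b = 0 := by
  obtain ⟨s', ha⟩ : ∃ s' : A, (a : A) = s + s' := ⟨a - s, by ring⟩
  have hss : s * s' = l := by
    rw [ha] at h
    linear_combination -h
  have hV : ∀ n, s ^ n + s' ^ n = (lucasV a l n : A) ∧
      s ^ (n + 1) + s' ^ (n + 1) = (lucasV a l (n + 1) : A) := by
    intro n
    induction n with
    | zero =>
      refine ⟨?_, ?_⟩
      · simp only [lucasV, pow_zero]
        norm_num
      · simp only [lucasV, zero_add, pow_one]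
        exact ha.symm
    | succ n ih =>
      refine ⟨ih.2, ?_⟩
      have e : lucasV a l (n + 1 + 1) = a * lucasV a l (n + 1) - l * lucasV a l n := rfl
      rw [e]
      push_cast
      rw [← ih.1, ← ih.2]
      linear_combination (-(s ^ (n + 1) + s' ^ (n + 1))) * ha - (s ^ n + s' ^ n) * hss
  rw [← (hV b).1, ← hss, mul_pow]
  ring

open Polynomial in
/-- LEAF QL-A (~60 lines).  `s' := a • 1 - s` commutes with `s`, `s * s' = l • 1`,
`s ^ n + s' ^ n = V_n • 1` (two-step induction: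
`s^(n+2) + s'^(n+2) = (s + s') (s^(n+1) + s'^(n+1)) - s s' (s^n + s'^n)`), and
`(s^b)² - (s^b + s'^b) s^b + l^b = l^b - (s' s)^b = 0`. -/
theorem lucas_ring {R : Type*} [Ring R] (s : R) (a l : ℤ) (h : s ^ 2 - a • s + l • (1 : R) = 0)
    (b : ℕ) : (s ^ b) ^ 2 - lucasV a l b • s ^ b + (l ^ b) • (1 : R) = 0 := by
  set f : ℤ[X] := X ^ 2 - C a * X + C l with hf
  have h0 : (Ideal.Quotient.mk (Ideal.span {f})) f = 0 :=
    Ideal.Quotient.eq_zero_iff_mem.2 (Ideal.mem_span_singleton_self f)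
  have h1 := Lucas_comm (Ideal.Quotient.mk (Ideal.span {f}) X) a l (by
    rw [hf] at h0 ⊢
    simpa using h0) b
  have h2 : (Ideal.Quotient.mk (Ideal.span {f}))
      ((X ^ b) ^ 2 - C (lucasV a l b) * X ^ b + C l ^ b) = 0 := by
    simpa using h1
  rw [Ideal.Quotient.eq_zero_iff_mem, Ideal.mem_span_singleton] at h2
  obtain ⟨Q, hQ⟩ := h2
  have hfs : aeval s f = 0 := by
    rw [hf]
    simp only [map_add, map_sub, map_mul, map_pow, aeval_X, eq_intCast]
    rw [← h]
    simp [zsmul_eq_mul]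
  have h3 := congrArg (aeval s) hQ
  rw [map_mul, hfs, zero_mul] at h3
  simp only [map_add, map_sub, map_mul, map_pow, aeval_X, eq_intCast] at h3
  rw [← h3]
  simp [zsmul_eq_mul]

/-- LEAF QL-B (~60 lines).  Apply `lucas_ring` in the ring `AddMonoid.End T` to the restriction of
`P ↦ σ • P` (`DistribMulAction.toAddMonoidEnd`/`AddMonoidHom.restrict`, or redo the induction
directly on elements). -/
theorem lucas_smul {Γ G : Type*} [Group Γ] [AddCommGroup G] [DistribMulAction Γ G]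
    (T : AddSubgroup G) (σ : Γ) (hT : ∀ P ∈ T, σ • P ∈ T) (a l : ℤ)
    (h : ∀ P ∈ T, σ • σ • P - a • σ • P + l • P = 0) (b : ℕ) :
    ∀ P ∈ T, (σ ^ b) • (σ ^ b) • P - lucasV a l b • (σ ^ b) • P + (l ^ b) • P = 0 := by
  let s : AddMonoid.End T :=
    { toFun := fun P => ⟨σ • P.1, hT P.1 P.2⟩
      map_zero' := Subtype.ext (smul_zero σ)
      map_add' := fun P Q => Subtype.ext (smul_add σ P.1 Q.1) }
  have hs1 : ∀ P : T, ((s P : T) : G) = σ • P.1 := fun P => rfl
  have evm : ∀ (φ ψ : AddMonoid.End T) (P : T), (φ * ψ) P = φ (ψ P) := fun _ _ _ => rfl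
  have evs : ∀ (φ ψ : AddMonoid.End T) (P : T), (φ - ψ) P = φ P - ψ P := fun _ _ _ => rfl
  have eva : ∀ (φ ψ : AddMonoid.End T) (P : T), (φ + ψ) P = φ P + ψ P := fun _ _ _ => rfl
  have evz : ∀ (n : ℤ) (φ : AddMonoid.End T) (P : T), (n • φ) P = n • φ P := fun _ _ _ => rfl
  have ev1 : ∀ P : T, (1 : AddMonoid.End T) P = P := fun _ => rfl
  have hs : s ^ 2 - a • s + l • (1 : AddMonoid.End T) = 0 := by
    ext P
    rw [eva, evs, evz, evz, ev1, pow_two, evm]
    exact h P.1 P.2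
  have hpow : ∀ (n : ℕ) (P : T), (((s ^ n) P : T) : G) = σ ^ n • P.1 := by
    intro n
    induction n with
    | zero =>
      intro P
      rw [pow_zero, pow_zero, ev1, one_smul]
    | succ n ih =>
      intro P
      rw [pow_succ, evm, ih, hs1, pow_succ, mul_smul]
  have h1 := lucas_ring s a l hs b
  intro P hP
  have h2 := congrArg (fun φ : AddMonoid.End T => ((φ ⟨P, hP⟩ : T) : G)) h1
  simp only [eva, evs, evz, ev1, pow_two, evm] at h2
  have h3 : (((s ^ b) ((s ^ b) ⟨P, hP⟩) : T) : G) - lucasV a l b • (((s ^ b) ⟨P, hP⟩ : T) : G) +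
      (l ^ b) • P = 0 := h2
  rw [hpow, hpow] at h3
  exact h3

end Fermat.Agent.S58
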