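import Fermat.Agent.S58.Contracts
import Fermat.Agent.GAL.Cyclo

/-!
# S58, block QUAD : roots of unity and finite levels
-/

set_option autoImplicit false

namespace Fermat.Agent.S58

/-- LEAF QM-A (~40 lines).  `GAL.sub_pow_mem_of_isFrobeniusAt`, `GAL.eq_of_sub_mem_nonunits`,
`GAL.mem_of_pow_eq_one` (see the proof of `GAL.eps_frobenius` in `GAL/Cyclo.lean`), then induction
on `b`. -/
theorem frobenius_pow_rootOfUnity {ℓ : ℕ} (hℓ : ℓ.Prime) {A : ValuationSubring Qb}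
    (hA : A.LiesOverPrime ℓ) {σ : GQ} (hσ : A.IsFrobeniusAt σ ℓ) {m : ℕ} (hm : ¬ ℓ ∣ m)
    (b : ℕ) {ζ : Qb} (hζ : ζ ^ m = 1) : (σ ^ b) ζ = ζ ^ (ℓ ^ b) := by
  have hm0 : m ≠ 0 := by rintro rfl; exact hm (dvd_zero _)
  have h1 : ∀ t : Qb, t ^ m = 1 → σ t = t ^ ℓ := by
    intro t ht
    have htA : t ∈ A := GAL.Cyclo.mem_of_pow_eq_one A hm0 ht
    refine GAL.Cyclo.eq_of_sub_mem_nonunits A hℓ hA hm ?_ ?_
      (GAL.Cyclo.sub_pow_mem_of_isFrobeniusAt hσ htA)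
    · rw [← map_pow, ht, map_one]
    · rw [← pow_mul, mul_comm, pow_mul, ht, one_pow]
  induction b with
  | zero => simp
  | succ b ih =>
    rw [pow_succ', AlgEquiv.mul_apply, ih, h1 _ (by rw [← pow_mul, mul_comm, pow_mul, hζ, one_pow]),
      ← pow_mul, ← pow_succ]

/-- LEAF QM-B (~30 lines).  As in `GAL.eps_inertia`. -/
theorem inertia_rootOfUnity {q : ℕ} (hq : q.Prime) {A : ValuationSubring Qb}
    (hA : A.LiesOverPrime q) {σ : GQ} (hσ : σ ∈ A.inertiaSubgroupIn ℚ) {m : ℕ} (hm : ¬ q ∣ m)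
    {ζ : Qb} (hζ : ζ ^ m = 1) : σ ζ = ζ := by
  have hm0 : m ≠ 0 := by rintro rfl; exact hm (dvd_zero _)
  have htA : ζ ∈ A := GAL.Cyclo.mem_of_pow_eq_one A hm0 hζ
  refine GAL.Cyclo.eq_of_sub_mem_nonunits A hq hA hm ?_ hζ
    (GAL.Cyclo.sub_mem_of_mem_inertia hσ htA)
  rw [← map_pow, hζ, map_one]

/-- LEAF QM-C (~50 lines).  `F = L₁ ⊔ L₂ ⊔ adjoin ℚ {ζ | ζ ^ m = 1}`; the set is finite
(roots of `X^m - 1`), its elements are integral; `IntermediateField.finiteDimensional_sup`,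
`IntermediateField.finiteDimensional_adjoin`. -/
theorem exists_level (L₁ L₂ : IntermediateField ℚ Qb) (h₁ : FiniteDimensional ℚ L₁)
    (h₂ : FiniteDimensional ℚ L₂) (m : ℕ) (hm : 0 < m) :
    ∃ F : IntermediateField ℚ Qb, FiniteDimensional ℚ F ∧ L₁ ≤ F ∧ L₂ ≤ F ∧
      ∀ ζ : Qb, ζ ^ m = 1 → ζ ∈ F := by
  have := GAL.Cyclo.isAlgebraic_Qb inferInstance
  have h3 : FiniteDimensional ℚ (IntermediateField.adjoin ℚ
      ((Polynomial.nthRootsFinset m (1 : Qb) : Finset Qb) : Set Qb)) :=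
    IntermediateField.finiteDimensional_adjoin
      (fun x _ => (Algebra.IsAlgebraic.isAlgebraic x).isIntegral)
  have h12 : FiniteDimensional ℚ (L₁ ⊔ L₂ : IntermediateField ℚ Qb) :=
    IntermediateField.finiteDimensional_sup _ _
  refine ⟨L₁ ⊔ L₂ ⊔ IntermediateField.adjoin ℚ
      ((Polynomial.nthRootsFinset m (1 : Qb) : Finset Qb) : Set Qb),
    IntermediateField.finiteDimensional_sup _ _, le_sup_left.trans le_sup_left,
    le_sup_right.trans le_sup_left, fun ζ hζ => ?_⟩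
  refine (le_sup_right : _ ≤ L₁ ⊔ L₂ ⊔ _) (IntermediateField.subset_adjoin _ _ ?_)
  rw [Finset.mem_coe, Polynomial.mem_nthRootsFinset hm]
  exact hζ

end Fermat.Agent.S58
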