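import Fermat.Agent.S58.Quad.Charpoly

/-!
# S58, block QUAD : characteristic polynomials in rank two
-/

set_option autoImplicit false

namespace Fermat.Agent.S58

open Polynomial

variable {R V : Type*} [CommRing R] [AddCommGroup V] [Module R V] [Module.Free R V]
  [Module.Finite R V]

/-- LEAF QC-C (~100 lines).  In a basis the matrix entries of `f` and `f'` are congruent modulo `I`
(the coordinates of an element of `I • ⊤` lie in `I`: `Submodule.smul_induction_on`), hence so are
trace and determinant (`Matrix.trace_fin_two`, `Matrix.det_fin_two`); conclude with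
`charpoly_rank_two` (`coeff 1 = - trace`, `coeff 0 = det`). -/
theorem charpoly_coeff_congr (hV : Module.finrank R V = 2) (I : Ideal R) (f f' : Module.End R V)
    (h : ∀ v, f v - f' v ∈ I • (⊤ : Submodule R V)) :
    f.charpoly.coeff 1 - f'.charpoly.coeff 1 ∈ I ∧ f.charpoly.coeff 0 - f'.charpoly.coeff 0 ∈ I := by
  rcases subsingleton_or_nontrivial R with hs | hn
  · have h0 : ∀ r : R, r ∈ I := fun r => by
      rw [Subsingleton.elim r 0]
      exact I.zero_mem
    exact ⟨h0 _, h0 _⟩
  let b := Module.finBasisOfFinrankEq R V hV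
  have hrepr : ∀ w ∈ I • (⊤ : Submodule R V), ∀ i, b.repr w i ∈ I := by
    intro w hw i
    induction hw using Submodule.smul_induction_on' with
    | smul r hr n _ =>
      rw [map_smul, Finsupp.smul_apply, smul_eq_mul]
      exact I.mul_mem_right _ hr
    | add x _ y _ hx hy =>
      rw [map_add, Finsupp.add_apply]
      exact I.add_mem hx hy
  have hmk : ∀ i j, Ideal.Quotient.mk I (LinearMap.toMatrix b b f i j) =
      Ideal.Quotient.mk I (LinearMap.toMatrix b b f' i j) := by
    intro i j
    rw [Ideal.Quotient.eq, LinearMap.toMatrix_apply, LinearMap.toMatrix_apply, ← Finsupp.sub_apply,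
      ← map_sub]
    exact hrepr _ (h (b j)) i
  have hc1 : ∀ g : Module.End R V, g.charpoly.coeff 1 = -LinearMap.trace R V g := by
    intro g
    rw [charpoly_rank_two hV g]
    simp only [coeff_add, coeff_sub, coeff_X_pow, coeff_C_mul, coeff_X_one, coeff_C]
    simp
  have hc0 : ∀ g : Module.End R V, g.charpoly.coeff 0 = LinearMap.det g := by
    intro g
    rw [charpoly_rank_two hV g]
    simp only [coeff_add, coeff_sub, coeff_X_pow, coeff_C_mul, coeff_X_zero, coeff_C]
    simp
  refine ⟨?_, ?_⟩
  · rw [← Ideal.Quotient.eq, hc1, hc1, LinearMap.trace_eq_matrix_trace R b f,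
      LinearMap.trace_eq_matrix_trace R b f', Matrix.trace_fin_two, Matrix.trace_fin_two]
    simp only [map_neg, map_add, hmk]
  · rw [← Ideal.Quotient.eq, hc0, hc0, ← LinearMap.det_toMatrix b f, ← LinearMap.det_toMatrix b f',
      Matrix.det_fin_two, Matrix.det_fin_two]
    simp only [map_sub, map_mul, hmk]

end Fermat.Agent.S58
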