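import Fermat.Agent.S58.Quad.CharpolyPow
import Fermat.Agent.S58.Quad.CharpolyCongr
import Fermat.Agent.S58.Quad.Mu
import Fermat.Agent.Lib.FrobDensity.GALInterface

/-!
# S58, block QUAD : assembly
-/

set_option autoImplicit false

namespace Fermat.Agent.S58

open Polynomial

theorem quad_coeff {R : Type*} [CommRing R] (c d : R) :
    (X ^ 2 - C c * X + C d : R[X]).coeff 1 = -c ∧ (X ^ 2 - C c * X + C d : R[X]).coeff 0 = d := by
  constructor
  · simp [coeff_X_pow, coeff_C]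
  · simp [coeff_X_pow]

theorem quad_map_mem {R V : Type*} [CommRing R] [AddCommGroup V] [Module R V] (I : Ideal R)
    (f : Module.End R V) {x : V} (hx : x ∈ I • (⊤ : Submodule R V)) :
    f x ∈ I • (⊤ : Submodule R V) := by
  have h1 : f x ∈ (I • (⊤ : Submodule R V)).map f := Submodule.mem_map_of_mem hx
  rw [Submodule.map_smul''] at h1
  exact Submodule.smul_mono le_rfl le_top h1

theorem smul_nsmul_comm' {Γ G : Type*} [Monoid Γ] [AddMonoid G] [DistribMulAction Γ G] (τ : Γ)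
    (m : ℕ) (P : G) : τ • (m • P) = m • (τ • P) :=
  (DistribSMul.toAddMonoidHom G τ).map_nsmul m P

theorem stmtQuad_of (hF : StmtFrobAE) (hT : StmtTors) : StmtQuad := by
  intro W hΔ R _ V _ _ _ _ hV r I L hL hrL B hB m hm g
  obtain ⟨L₂, hL₂, hfix⟩ := hT.level W hΔ m hm
  obtain ⟨F, hFfd, h1, h2, h3⟩ := exists_level L L₂ hL hL₂ m hm
  obtain ⟨S, hS⟩ := hF W hΔ m hm
  obtain ⟨ℓ, A, σ, b, hℓ, hℓB, hA, hσ, hgσ⟩ :=
    Fermat.Agent.Lib.FrobDensity.gal_frobeniusDensity F hFfd g (B ∪ S ∪ m.primeFactors)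
  simp only [Finset.mem_union, not_or] at hℓB
  obtain ⟨⟨hℓB, hℓS⟩, hℓm⟩ := hℓB
  have hℓm' : ¬ ℓ ∣ m := fun hd => hℓm (Nat.mem_primeFactors.mpr ⟨hℓ, hd, hm.ne'⟩)
  -- `g = σ ^ b * h` with `h` trivial on `F`
  set h : GQ := (σ ^ b)⁻¹ * g with hh
  have hg : g = σ ^ b * h := by rw [hh, mul_inv_cancel_left]
  have hhF : ∀ x ∈ F, h x = x := by
    intro x hx
    have : (σ ^ b) (h x) = (σ ^ b) x := by
      rw [← AlgEquiv.mul_apply, ← hg, hgσ x hx]
    exact (σ ^ b).injective this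
  -- characteristic polynomials
  have hcp : LinearMap.charpoly (r (σ ^ b)) =
      X ^ 2 - C ((lucasV (W.apOfModel ℓ) ℓ b : ℤ) : R) * X + C ((((ℓ : ℤ)) ^ b : ℤ) : R) := by
    rw [map_pow]
    refine charpoly_pow_rank_two hV (r σ) _ _ ?_ b
    rw [hB ℓ hℓ hℓB A hA σ hσ, Int.cast_natCast]
  have hcong := charpoly_coeff_congr hV I (r g) (r (σ ^ b)) (by
    intro v
    have e : r g v - r (σ ^ b) v = r (σ ^ b) (r h v - v) := by
      rw [hg, map_mul, Module.End.mul_apply, map_sub]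
    rw [e]
    exact quad_map_mem I _ (hrL h (fun x hx => hhF x (h1 hx)) v))
  rw [hcp, (quad_coeff _ _).1, (quad_coeff _ _).2] at hcong
  -- action on torsion points
  have hgP : ∀ P : EP W, m • P = 0 → g • P = (σ ^ b) • P := by
    intro P hP
    rw [hg, mul_smul, hfix h (fun x hx => hhF x (h2 hx)) P hP]
  have htor : ∀ (τ : GQ) (P : EP W), m • P = 0 → m • (τ • P) = 0 := by
    intro τ P hP
    rw [← smul_nsmul_comm' τ m P, hP, smul_zero]
  refine ⟨lucasV (W.apOfModel ℓ) ℓ b, ℓ ^ b, ?_, ?_, ?_, ?_⟩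
  · simpa using hcong.1
  · simpa using hcong.2
  · intro ζ hζ
    rw [← hgσ ζ (h3 ζ hζ)]
    exact frobenius_pow_rootOfUnity hℓ hA hσ hℓm' b hζ
  · intro P hP
    rw [hgP (g • P) (htor g P hP), hgP P hP]
    have := lucas_smul (Γ := GQ) (G := EP W) (nsmulAddMonoidHom m : EP W →+ EP W).ker σ
      (fun P hP => htor σ P hP) (W.apOfModel ℓ) ℓ
      (fun P hP => hS ℓ hℓ hℓS A hA σ hσ P hP) b P hP
    simpa using this

end Fermat.Agent.S58
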