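import Fermat.Agent.S58.Quad.Lucas

/-!
# S58, block QUAD : characteristic polynomials in rank two
-/

set_option autoImplicit false

namespace Fermat.Agent.S58

open Polynomial

variable {R V : Type*} [CommRing R] [AddCommGroup V] [Module R V] [Module.Free R V]
  [Module.Finite R V]

/-- LEAF QC-A (~50 lines).  `R` is nontrivial (else `finrank = 0`); basis
`Module.finBasisOfFinrankEq R V hV`; `LinearMap.charpoly_toMatrix`, `Matrix.charpoly_fin_two`,
`LinearMap.trace_eq_matrix_trace`, `LinearMap.det_toMatrix`. -/
theorem charpoly_rank_two (hV : Module.finrank R V = 2) (f : Module.End R V) :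
    f.charpoly = X ^ 2 - C (LinearMap.trace R V f) * X + C (LinearMap.det f) := by
  have hnt : Nontrivial R := by
    by_contra hcon
    rw [not_nontrivial_iff_subsingleton] at hcon
    have h0 : Module.finrank R V = 1 := Module.finrank_subsingleton
    omega
  have b := Module.finBasisOfFinrankEq R V hV
  rw [← LinearMap.charpoly_toMatrix f b, Matrix.charpoly_fin_two,
    LinearMap.trace_eq_matrix_trace R b f, ← LinearMap.det_toMatrix b f]

end Fermat.Agent.S58
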