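import Fermat.Agent.S58.Quad.Charpoly

/-!
# S58, block QUAD : characteristic polynomials in rank two
-/

set_option autoImplicit false

namespace Fermat.Agent.S58

open Polynomial

variable {R V : Type*} [CommRing R] [AddCommGroup V] [Module R V] [Module.Free R V]
  [Module.Finite R V]

/-- LEAF QC-B (~80 lines).  By `charpoly_rank_two`, `trace f = a`, `det f = l` (compare
coefficients).  `det (f^b) = l^b` (`map_pow`).  Cayley-Hamilton (`LinearMap.aeval_self_charpoly`):
`f² = a f - l`, so `f^(n+2) = a f^(n+1) - l f^n` and the traces satisfy the Lucas recursion;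
`trace 1 = finrank = 2` (`LinearMap.trace_one`). -/
theorem charpoly_pow_rank_two (hV : Module.finrank R V = 2) (f : Module.End R V) (a l : ℤ)
    (hf : f.charpoly = X ^ 2 - C (a : R) * X + C (l : R)) (b : ℕ) :
    (f ^ b).charpoly = X ^ 2 - C ((lucasV a l b : ℤ) : R) * X + C ((l ^ b : ℤ) : R) := by
  have h0 := charpoly_rank_two hV f
  rw [hf] at h0
  have htr : LinearMap.trace R V f = (a : R) := by
    have h1 := congrArg (fun p => p.coeff 1) h0
    simp only [coeff_add, coeff_sub, coeff_X_pow, coeff_C_mul, coeff_X_one, coeff_C] at h1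
    simp at h1
    exact h1.symm
  have hdet : LinearMap.det f = (l : R) := by
    have h1 := congrArg (fun p => p.coeff 0) h0
    simp only [coeff_add, coeff_sub, coeff_X_pow, coeff_C_mul, coeff_X_zero, coeff_C] at h1
    simp at h1
    exact h1.symm
  have hCH : f ^ 2 = (a : R) • f - (l : R) • (1 : Module.End R V) := by
    have h1 := LinearMap.aeval_self_charpoly f
    rw [hf] at h1
    simp only [map_add, map_sub, map_mul, map_pow, aeval_X, aeval_C,
      Algebra.algebraMap_eq_smul_one, smul_mul_assoc, one_mul] at h1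
    rw [sub_add, sub_eq_zero] at h1
    exact h1
  have hrec : ∀ n, f ^ (n + 2) = (a : R) • f ^ (n + 1) - (l : R) • f ^ n := by
    intro n
    rw [pow_add, hCH, mul_sub, mul_smul_comm, mul_smul_comm, mul_one, ← pow_succ]
  have htrace : ∀ n, LinearMap.trace R V (f ^ n) = ((lucasV a l n : ℤ) : R) ∧
      LinearMap.trace R V (f ^ (n + 1)) = ((lucasV a l (n + 1) : ℤ) : R) := by
    intro n
    induction n with
    | zero =>
      refine ⟨?_, ?_⟩
      · rw [pow_zero, LinearMap.trace_one, hV]
        simp [lucasV]
      · rw [zero_add, pow_one, htr]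
        simp [lucasV]
    | succ n ih =>
      refine ⟨ih.2, ?_⟩
      rw [hrec, map_sub, map_smul, map_smul, ih.1, ih.2]
      simp [lucasV]
  rw [charpoly_rank_two hV (f ^ b), (htrace b).1, map_pow, hdet]
  push_cast
  rfl

end Fermat.Agent.S58
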